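import Fermat.Agent.S37.Gate
import Fermat.Agent.Jac.Kummer
import Fermat.Agent.Red.HKInputs

/-!
# P-RED, R-EST: `EichlerShimuraTorsion N p` from the gate and the two congruences

Inputs (all as hypotheses, frozen in `Fermat/Agent/S37/Gate.lean`):

* `Gate N` : a function `w ≡ 1` modulo the Gauss valuation whose divisor is divisible by `m`
  (`ℓ ∤ m`) is an `m`-th power;
* `IfaceCongInertia N` : for `σ` in the inertia group, `σ u / u ≡ 1` after scaling `u`;
* `IfaceCongFrobenius N` : for a Frobenius `σ`, `Norm_α (β u) / (σ u · (σ⁻¹ u) ^ ℓ) ≡ 1` after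
  scaling `u` (Kronecker congruence in function form).

Output: `Fermat.Agent.S29.EichlerShimuraTorsion N p`.  The Hecke inputs are unconditional
(`Fermat.Agent.Red.HKMod.heckeInputsAlong`), and the bookkeeping between torsion classes and
functions is the Kummer-pair calculus of `Fermat/Agent/Jac/Kummer.lean`.
-/

set_option autoImplicit false

open AlgebraicCurve ModularCurve IntermediateField

noncomputable section

namespace Fermat.Agent.Red.EST

open Fermat.Agent.S37 Fermat.Agent.Jac.K1 Fermat.Agent.Red.HKMod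

/-! ## Kummer pairs: three more rules -/

section General

variable {K F : Type*} [Field K] [Field F] [Algebra K F]

/-- scaling a Kummer representative by a nonzero constant -/
theorem h76_kummer_const_mul {n : ℕ} {x : Pic0 K F} {f : F} (hx : IsKummerPair n x f)
    {c : K} (hc : c ≠ 0) : IsKummerPair n x (algebraMap K F c * f) := by
  obtain ⟨hf, D, hDx, hD⟩ := hx
  have hc' : algebraMap K F c ≠ 0 := by simpa using hc
  refine ⟨mul_ne_zero hc' hf, D, hDx, fun v => ?_⟩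
  rw [v.ord_mul hc' hf, ord_algebraMap v hc, zero_add]
  exact hD v

/-- powers of Kummer representatives -/
theorem h76_kummer_npow {n : ℕ} {x : Pic0 K F} {f : F} (hx : IsKummerPair n x f) (k : ℕ) :
    IsKummerPair n (k • x) (f ^ k) := by
  induction k with
  | zero =>
    rw [zero_nsmul, pow_zero]
    exact IsKummerPair.one
  | succ k ih =>
    rw [succ_nsmul, pow_succ]
    exact ih.mul hx

/-- a Kummer representative which is an `n`-th power represents the zero class -/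
theorem h76_kummer_eq_zero_of_pow {n : ℕ} (hn : n ≠ 0) {x : Pic0 K F} {f h : F}
    (hx : IsKummerPair n x f) (hh : h ^ n = f) : x = 0 := by
  obtain ⟨hf, D, rfl, hD⟩ := hx
  have hh0 : h ≠ 0 := by
    rintro rfl
    rw [zero_pow hn] at hh
    exact hf hh.symm
  rw [pic0_mk_eq_zero_iff]
  refine ⟨h, hh0, fun v => ?_⟩
  have h1 : (n : ℤ) * (D : Divisor K F) v = (n : ℤ) * v.ord h := by
    rw [hD v, ← hh, ord_pow]
  exact mul_left_cancel₀ (Int.natCast_ne_zero.mpr hn) h1

end General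

/-! ## The two halves -/

section Modular

variable (N : ℕ) [NeZero N]

/-- **Inertia half.**  For `σ` in the inertia group at `A` over `ℓ ∤ N`, `σ` fixes every point
of `J₀(N)` killed by an integer `m ≠ 0` prime to `ℓ`. -/
theorem h76_inertia_fix (hG : Gate N) (hI : IfaceCongInertia N) {ℓ : ℕ} (hℓ : ℓ.Prime)
    (hℓN : ¬ ℓ ∣ N) (A : ValuationSubring Kbar) (hA : A.LiesOverPrime ℓ) (σ : GQ)
    (hσ : σ ∈ A.inertiaSubgroupIn ℚ) (m : ℕ) (hm0 : m ≠ 0) (hm : ¬ ℓ ∣ m) (x : JZero N)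
    (hx : m • x = 0) : σ • x = x := by
  obtain ⟨f, hf⟩ := exists_kummerPair (n := m) (x := x) (by rw [natCast_zsmul]; exact hx)
  obtain ⟨c, hc, hcong⟩ := hI ℓ hℓ hℓN A hA σ hσ f hf.ne_zero
  have hu : IsKummerPair m x (cst N c * f) := h76_kummer_const_mul hf hc
  have hw : IsKummerPair m (gal N σ • x - x) ((gal N σ • (cst N c * f)) / (cst N c * f)) :=
    (hu.smul (gal N σ)).div hu
  obtain ⟨h, hh⟩ := hG ℓ hℓ hℓN A hA m hm _ hw.ne_zero (fun v => hw.dvd_ord v) hcong
  exact sub_eq_zero.mp (h76_kummer_eq_zero_of_pow hm0 hw hh)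

/-- **Frobenius half (Eichler–Shimura relation in the form `T_ℓ = σ + ℓ σ⁻¹`).**  For a
Frobenius `σ` at `A` over `ℓ ∤ N` and every point `y` of `J₀(N)` killed by an integer `m ≠ 0`
prime to `ℓ`. -/
theorem h76_frobenius_hecke (hG : Gate N) (hF : IfaceCongFrobenius N) {ℓ : ℕ} (hℓ : ℓ.Prime)
    (hℓN : ¬ ℓ ∣ N) (A : ValuationSubring Kbar) (hA : A.LiesOverPrime ℓ) (σ : GQ)
    (hσ : A.IsFrobeniusAt σ ℓ) (m : ℕ) (hm0 : m ≠ 0) (hm : ¬ ℓ ∣ m) (y : JZero N)
    (hy : m • y = 0) :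
    heckeOperatorBar N ⟨ℓ, hℓ⟩ y = σ • y + ℓ • (σ⁻¹ • y) := by
  have : NeZero ℓ := ⟨hℓ.ne_zero⟩
  have := hasPrincipalDivisors_FF (N * ℓ)
  obtain ⟨f, hf⟩ := exists_kummerPair (n := m) (x := y) (by rw [natCast_zsmul]; exact hy)
  obtain ⟨c, hc, hcong⟩ := hF ℓ hℓ hℓN A hA σ hσ f hf.ne_zero
  have hu : IsKummerPair m y (cst N c * f) := h76_kummer_const_mul hf hc
  have hT : IsKummerPair m (heckeOperatorBar N ⟨ℓ, hℓ⟩ y)
      (normAlong (heckeAlphaBar Kbar N ℓ) (heckeBetaBar Kbar N ℓ (cst N c * f))) := by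
    have h1 := hu.correspondence (heckeBetaBar Kbar N ℓ) (heckeAlphaBar Kbar N ℓ)
      (heckeBetaBarIntegral N ℓ) (heckeAlphaBarIntegral N ℓ)
      (fundamentalIdentityAlong_heckeBetaBar N ℓ) (finiteAlong_heckeAlphaBar N ℓ)
      (normFormulaAlong_heckeAlphaBar N ℓ)
    have h2 : heckeOperatorBar N ⟨ℓ, hℓ⟩ y
        = Pic0.correspondence (heckeBetaBar Kbar N ℓ) (heckeAlphaBar Kbar N ℓ)
            (heckeBetaBarIntegral N ℓ) (heckeAlphaBarIntegral N ℓ)
            (fundamentalIdentityAlong_heckeBetaBar N ℓ) (finiteAlong_heckeAlphaBar N ℓ)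
            (normFormulaAlong_heckeAlphaBar N ℓ) y := by
      change heckeOperatorAlong Kbar N ℓ y = _
      rw [heckeOperatorAlong_eq_heckePic0Bar]
      rfl
    rw [h2]
    exact h1
  have hS : IsKummerPair m (gal N σ • y + ℓ • (gal N σ⁻¹ • y))
      ((gal N σ • (cst N c * f)) * (gal N σ⁻¹ • (cst N c * f)) ^ ℓ) :=
    (hu.smul (gal N σ)).mul (h76_kummer_npow (hu.smul (gal N σ⁻¹)) ℓ)
  have hw := hT.div hS
  obtain ⟨h, hh⟩ := hG ℓ hℓ hℓN A hA m hm _ hw.ne_zero (fun v => hw.dvd_ord v) hcong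
  exact sub_eq_zero.mp (h76_kummer_eq_zero_of_pow hm0 hw hh)

end Modular

/-! ## The assembly -/

/-- **R-EST.**  `EichlerShimuraTorsion N p` from the gate and the two congruences. -/
theorem eichlerShimuraTorsion_of' (N p : ℕ) [NeZero N] (hG : Gate N) (hI : IfaceCongInertia N)
    (hF : IfaceCongFrobenius N) : Fermat.Agent.S29.EichlerShimuraTorsion N p := by
  refine ⟨fun ℓ hℓ hℓNp A hA σ hσ x hx => ?_, fun ℓ hℓ hℓNp A hA σ hσ x hx => ?_⟩
  · obtain ⟨n, hx⟩ := hx
    have hℓN : ¬ ℓ ∣ N := fun h => hℓNp (h.mul_right p)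
    have hℓp : ¬ ℓ ∣ p := fun h => hℓNp (h.mul_left N)
    have hp0 : p ≠ 0 := by
      rintro rfl
      exact hℓp (dvd_zero ℓ)
    exact h76_inertia_fix N hG hI hℓ hℓN A hA σ hσ (p ^ n) (pow_ne_zero n hp0)
      (fun h => hℓp (hℓ.dvd_of_dvd_pow h)) x hx
  · obtain ⟨n, hx⟩ := hx
    have hℓN : ¬ ℓ ∣ N := fun h => hℓNp (h.mul_right p)
    have hℓp : ¬ ℓ ∣ p := fun h => hℓNp (h.mul_left N)
    have hp0 : p ≠ 0 := by
      rintro rfl
      exact hℓp (dvd_zero ℓ)
    have hσx : p ^ n • (σ • x) = 0 := by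
      have h2 : σ • (p ^ n • x) = p ^ n • (σ • x) :=
        map_nsmul (DistribSMul.toAddMonoidHom (JZero N) σ) (p ^ n) x
      rw [← h2, hx]
      exact map_zero (DistribSMul.toAddMonoidHom (JZero N) σ)
    have key := h76_frobenius_hecke N hG hF hℓ hℓN A hA σ hσ (p ^ n) (pow_ne_zero n hp0)
      (fun h => hℓp (hℓ.dvd_of_dvd_pow h)) (σ • x) hσx
    rw [key, inv_smul_smul]
    abel

/-- **R-EST** (signature of the task table; the Hecke inputs are in fact unconditional). -/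
theorem eichlerShimuraTorsion_of (N p : ℕ) [NeZero N] (hG : Gate N) (hI : IfaceCongInertia N)
    (hF : IfaceCongFrobenius N) (_hH : IfaceHeckeInputs) :
    Fermat.Agent.S29.EichlerShimuraTorsion N p :=
  eichlerShimuraTorsion_of' N p hG hI hF

end Fermat.Agent.Red.EST
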