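import Fermat.Agent.Red.EST.Assembly
import Fermat.Agent.Red.ESTF.Final
import Fermat.Agent.Red.EstI
import Fermat.Agent.Red.GateAll
import Fermat.Agent.Red.Desc.Final

/-!
# P-RED, target (A): `EichlerShimuraTorsion N p` from the gate at good levels

All inputs of `eichlerShimuraTorsion_of'` except `GateGood` are unconditional:

* `IfaceCongInertia N`   : `Fermat.Agent.Red.EstI.ifaceCongInertia` (helper61),
* `IfaceCongFrobenius N` : `Fermat.Agent.Red.ESTF.ifaceCongFrobenius` (helper44 + helper76),
* `IfaceGateDescent`     : `Fermat.Agent.Red.Desc.ifaceGateDescent` (helper77 + helper51 + helper93),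
* `Gate N ⇐ GateGood`    : `Fermat.Agent.Red.GateAll` (helper99).
-/

set_option autoImplicit false

namespace Fermat.Agent.Red.EST

open Fermat.Agent.S37

/-- the gate at every level, from the gate at good levels -/
theorem gate_of_gateGood (hG : GateGood) (N : ℕ) [NeZero N] : Gate N :=
  Fermat.Agent.Red.GateAll.gate_of_gatePrime N
    (Fermat.Agent.Red.GateAll.gatePrime_of hG Fermat.Agent.Red.Desc.ifaceGateDescent N)

/-- **Target (A).**  `EichlerShimuraTorsion N p` from `GateGood`. -/
theorem eichlerShimuraTorsion_of_gateGood (hG : GateGood) (N p : ℕ) [NeZero N] :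
    Fermat.Agent.S29.EichlerShimuraTorsion N p :=
  eichlerShimuraTorsion_of' N p (gate_of_gateGood hG N)
    (Fermat.Agent.Red.EstI.ifaceCongInertia N) (Fermat.Agent.Red.ESTF.ifaceCongFrobenius N)

/-- **Target (A)**, packaged. -/
theorem targetTorsion_of_gateGood (hG : GateGood) : TargetTorsion :=
  fun N p _ => eichlerShimuraTorsion_of_gateGood hG N p

end Fermat.Agent.Red.EST
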